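import Mathlib
import Fermat.Agent.S30.Model.Main
import Fermat.Agent.S30.Model.Defs
import Fermat.Agent.S30.Model.Assembly

/-!
# S18 / K1Main: the single entry point to the MODEL THEOREM

Everything in `S18/K1Main` cites the Model Theorem ONLY through the four theorems of this file
(`modelA`, `modelB` in the family form of `Model/Main.lean`; `modelA_tsd`, `modelB_tsd` in the
trace-self-duality form of `Model/Defs.lean`).  They are currently taken from
`Model/Assembly.lean` (which still has open rows); when the sorry-free `Model/MainProved.lean`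
lands, only the import and the four right-hand sides below change.
-/

set_option autoImplicit false

open Polynomial

namespace Fermat.Agent.S18.K1Main

open Fermat.Agent.S30 Fermat.Agent.S30.Model

variable {O E L : Type*} [CommRing O] [IsDomain O] [IsDiscreteValuationRing O]
  [Field E] [CharZero E] [Algebra O E] [IsFractionRing O E]
  [Field L] [Algebra E L] [Algebra O L] [IsScalarTower O E L]

/-- MODEL THEOREM (a), trace-self-duality form. -/
theorem modelA_tsd (π : O) (hπ : Irreducible π) (u : L) (hu : Transcendental E u)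
    [FiniteDimensional (IntermediateField.adjoin E {u}) L] (halg : AlgClosedIn E L)
    (hi : GaussTSD (E := E) π u)
    (S : Finset O) (hS : ∀ c ∈ S, ∀ c' ∈ S, c ≠ c' → IsUnit (c - c'))
    (hii : HorizTSD (E := E) S u) :
    Prime (algebraMap (Algebra.adjoin O {u}) (integralClosure (Algebra.adjoin O {u}) L)
      (algebraMap O (Algebra.adjoin O {u}) π)) :=
  Assembly.main_a_tsd π hπ u hu halg hi S hS hii

/-- MODEL THEOREM (b), trace-self-duality form. -/
theorem modelB_tsd (π : O) (hπ : Irreducible π) (u : L) (hu : Transcendental E u)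
    [FiniteDimensional (IntermediateField.adjoin E {u}) L] (halg : AlgClosedIn E L)
    (hi : GaussTSD (E := E) π u)
    (S : Finset O) (hS : ∀ c ∈ S, ∀ c' ∈ S, c ≠ c' → IsUnit (c - c'))
    (hii : HorizTSD (E := E) S u)
    (p : ℕ) (hp : p.Prime) (hpO : IsUnit (p : O)) (ζ : O) (hζ : IsPrimitiveRoot ζ p)
    (g : L) (hg1 : GaussOne π u g) (hgu : LocPow (E := E) p u g) :
    ∃ (c : E) (h : L), g = algebraMap E L c * h ^ p := by
  classical
  by_contra hcon
  have : Fact p.Prime := ⟨hp⟩
  have hnp : ∀ h : L, h ^ p ≠ g := fun h hh => hcon ⟨1, h, by rw [map_one, one_mul, hh]⟩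
  have hg0 : g ≠ 0 := fun h0 => hnp 0 (by rw [h0, zero_pow hp.ne_zero])
  have hζE : IsPrimitiveRoot (algebraMap O E ζ) p :=
    hζ.map_of_injective (IsFractionRing.injective O E)
  let L' := (X ^ p - C g : L[X]).SplittingField
  have : IsScalarTower O E L' := IsScalarTower.of_algebraMap_eq (fun x => by
    rw [IsScalarTower.algebraMap_apply O L L', IsScalarTower.algebraMap_apply O E L,
      ← IsScalarTower.algebraMap_apply E L L'])
  have halg' : AlgClosedIn E L' := by
    by_contra h'
    exact hcon (ConstField.exists_eq_const_mul_pow (L' := L') p (algebraMap O E ζ) hζE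
      (fun x hx => halg x hx) g hg0 (fun h'' => h' (fun x hx => h'' x hx)))
  have hprime := Assembly.main_a_tsd π hπ u hu halg hi S hS hii
  obtain ⟨hfd, hi', hii'⟩ := Assembly.kummer_persist π hπ u hu halg hi S hS hii hprime p hp hpO
    ζ hζ g hg1 hgu hnp L'
  have hu' : Transcendental E (algebraMap L L' u) :=
    (transcendental_algebraMap_iff (algebraMap L L').injective).2 hu
  have := hfd
  have hprime' := Assembly.main_a_tsd π hπ (algebraMap L L' u) hu' halg' hi' S hS hii'
  exact Assembly.kummer_contra (E := E) π hπ u hu p hp hpO ζ hζ g hg1 hnp L' hprime'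

/-- MODEL THEOREM (a), family form (= `Model.main_a` of `Model/Main.lean`, verbatim). -/
theorem modelA (π : O) (hπ : Irreducible π) (u : L) (hu : Transcendental E u)
    [FiniteDimensional (IntermediateField.adjoin E {u}) L] (halg : AlgClosedIn E L)
    (hi : GaussUnram (E := E) π u)
    (S : Finset O) (hS : ∀ c ∈ S, ∀ c' ∈ S, c ≠ c' → IsUnit (c - c'))
    (hii : HorizUnram (E := E) S u) :
    Prime (algebraMap (Algebra.adjoin O {u}) (integralClosure (Algebra.adjoin O {u}) L)
      (algebraMap O (Algebra.adjoin O {u}) π)) :=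
  Assembly.main_a π hπ u hu halg hi S hS hii

/-- MODEL THEOREM (b), family form (= `Model.main_b` of `Model/Main.lean`, verbatim). -/
theorem modelB (π : O) (hπ : Irreducible π) (u : L) (hu : Transcendental E u)
    [FiniteDimensional (IntermediateField.adjoin E {u}) L] (halg : AlgClosedIn E L)
    (hi : GaussUnram (E := E) π u)
    (S : Finset O) (hS : ∀ c ∈ S, ∀ c' ∈ S, c ≠ c' → IsUnit (c - c'))
    (hii : HorizUnram (E := E) S u)
    (p : ℕ) (hp : p.Prime) (hpO : IsUnit (p : O)) (ζ : O) (hζ : IsPrimitiveRoot ζ p)
    (g : L) (hg1 : GaussOne π u g) (hgu : LocPow (E := E) p u g) :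
    ∃ (c : E) (h : L), g = algebraMap E L c * h ^ p :=
  Assembly.main_b π hπ u hu halg hi S hS hii p hp hpO ζ hζ g hg1 hgu

/-- Family form ⇒ trace-self-duality form of hypothesis (i). -/
theorem gaussTSD_of_gaussUnram (π : O) (hπ : Irreducible π) (t : L) (ht : Transcendental E t)
    [FiniteDimensional (IntermediateField.adjoin E {t}) L]
    (h : GaussUnram (E := E) π t) : GaussTSD (E := E) π t :=
  Assembly.gaussTSD_of_gaussUnram π hπ t ht h

/-- Family form ⇒ trace-self-duality form of hypothesis (ii). -/
theorem horizTSD_of_horizUnram (t : L) (ht : Transcendental E t)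
    [FiniteDimensional (IntermediateField.adjoin E {t}) L]
    (S : Finset O) (h : HorizUnram (E := E) S t) : HorizTSD (E := E) S t :=
  Assembly.horizTSD_of_horizUnram t ht S h

end Fermat.Agent.S18.K1Main
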