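import Mathlib
import Fermat.Agent.S18.K1Defs
import Fermat.Agent.S30.Model.Main
import Fermat.Agent.S30.GaussOne
import Fermat.Agent.S18.K1Main.ModelThm

/-!
# S18 / K1Main: generic assembly `Model.main_a + Model.main_b ⇒ K1E`

`O` a discrete valuation ring with fraction field `E` (characteristic zero), `L ⊆ E((q))` a field
all of whose elements are fractions of integral series, `u ∈ L` an integral series whose reduction
has a pole, `L / E(u)` finite.  Given the hypotheses (i), (ii) of the Model Theorem for `(L, u)` and
the translation "`p ∣ ord_P g` at all places ⇒ `LocPow`", the `E`-level Kummer statement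
`K1Defs.K1E O E L p` holds.

* `transcendental_of_order_neg`, `algClosedIn_laurent` : the two soft hypotheses of the Model
  Theorem for subfields of `E((q))`.
* `k1E_of_model` : the assembly from the two conclusions of the Model Theorem.
* `k1E_of_inputs`, `k1E_of_inputs_tsd` : the assembly from the hypotheses (i), (ii) in family
  form resp. trace-self-duality form (the Model Theorem is cited through `K1Main/ModelThm.lean`).
-/

set_option autoImplicit false
set_option linter.unusedSectionVars false

open ModularCurve AlgebraicCurve Polynomial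

noncomputable section

namespace Fermat.Agent.S18.K1Main

open Fermat.Agent.S18.K1Defs Fermat.Agent.S30

section Soft

variable {E : Type*} [Field E]

/-- A Laurent series algebraic over the coefficient field is a constant. -/
theorem eq_C_of_isAlgebraic (x : LaurentSeries E) (hx : IsAlgebraic E x) :
    ∃ c : E, x = HahnSeries.C c := by
  -- `y := x - C (x.coeff 0)`; either `y = 0` or one of `y`, `y⁻¹` has negative order
  set y : LaurentSeries E := x - HahnSeries.C (x.coeff 0) with hy
  have hyalg : IsAlgebraic E y := by
    refine hx.sub ?_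
    have : (HahnSeries.C (x.coeff 0) : LaurentSeries E) = algebraMap E (LaurentSeries E) (x.coeff 0) := by
      rw [algebraMap_laurentSeries_eq_single, HahnSeries.C_apply]
    rw [this]
    exact isAlgebraic_algebraMap _
  have hy0 : y.coeff 0 = 0 := by
    rw [hy, HahnSeries.coeff_sub, HahnSeries.C_apply, HahnSeries.coeff_single_same, sub_self]
  have key : ∀ z : LaurentSeries E, IsAlgebraic E z → ¬ z.order < 0 := by
    intro z hz hneg
    obtain ⟨P, hP0, hP⟩ := hz
    apply hP0
    apply GaussBridge.eval₂_C_eq_zero z hneg P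
    rw [← hP, aeval_def]
    congr 1
    refine RingHom.ext fun c => ?_
    rw [algebraMap_laurentSeries_eq_single, HahnSeries.C_apply]
  by_cases hyz : y = 0
  · exact ⟨x.coeff 0, sub_eq_zero.mp hyz⟩
  exfalso
  have h1 : ¬ y.order < 0 := key y hyalg
  have h2 : ¬ (y⁻¹).order < 0 := key y⁻¹ hyalg.inv
  have h3 : y.order ≠ 0 := by
    intro h0
    have := (HahnSeries.coeff_order_eq_zero (x := y)).not.mpr hyz
    rw [h0] at this
    exact this hy0
  have h4 : (y * y⁻¹).order = y.order + (y⁻¹).order :=
    HahnSeries.order_mul hyz (inv_ne_zero hyz)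
  rw [mul_inv_cancel₀ hyz, HahnSeries.order_one] at h4
  omega

/-- `E` is algebraically closed in every subfield of `E((q))`. -/
theorem algClosedIn_laurent (L : IntermediateField E (LaurentSeries E)) :
    Model.AlgClosedIn E L := by
  intro x hx
  have hx' : IsAlgebraic E (x : LaurentSeries E) := by
    obtain ⟨P, hP0, hP⟩ := hx
    refine ⟨P, hP0, ?_⟩
    have h1 := Polynomial.aeval_algHom_apply L.val x P
    rw [hP, map_zero] at h1
    exact h1
  obtain ⟨c, hc⟩ := eq_C_of_isAlgebraic _ hx'
  refine ⟨c, Subtype.ext ?_⟩
  rw [hc, HahnSeries.C_apply, ← algebraMap_laurentSeries_eq_single]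
  rfl

/-- An element of a subfield of `E((q))` with a pole is transcendental over `E`. -/
theorem transcendental_of_order_neg (L : IntermediateField E (LaurentSeries E)) (u : L)
    (hu : (u : LaurentSeries E).order < 0) : Transcendental E u := by
  intro halg
  obtain ⟨c, hc⟩ := algClosedIn_laurent L u halg
  have h1 : (u : LaurentSeries E) = HahnSeries.C c := by
    rw [← hc, HahnSeries.C_apply, ← algebraMap_laurentSeries_eq_single]
    rfl
  rw [h1] at hu
  have : (HahnSeries.C c : LaurentSeries E).order = 0 := by
    rw [HahnSeries.C_apply]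
    by_cases hc0 : c = 0
    · rw [hc0, HahnSeries.single_eq_zero, HahnSeries.order_zero]
    · exact HahnSeries.order_single hc0
  omega

end Soft

section Assembly

variable {O E : Type*} [CommRing O] [IsDomain O] [IsDiscreteValuationRing O] [Field E]
  [CharZero E] [Algebra O E] [IsFractionRing O E]

/-- If the reduction of an integral series has a pole, so does the series. -/
theorem order_iota_neg (uO : LaurentSeries O) (hpole : (GaussDVR.rho O uO).order < 0) :
    (GaussDVR.iota O E uO).order < 0 := by
  have hne : GaussDVR.rho O uO ≠ 0 := by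
    intro h0
    rw [h0, HahnSeries.order_zero] at hpole
    exact lt_irrefl _ hpole
  have hc := (HahnSeries.coeff_order_eq_zero (x := GaussDVR.rho O uO)).not.mpr hne
  set n := (GaussDVR.rho O uO).order with hn
  have h1 : uO.coeff n ≠ 0 := by
    intro h0
    apply hc
    show IsLocalRing.residue O (uO.coeff n) = 0
    rw [h0, map_zero]
  have h2 : (GaussDVR.iota O E uO).coeff n ≠ 0 := by
    show algebraMap O E (uO.coeff n) ≠ 0
    intro h0
    exact h1 (FaithfulSMul.algebraMap_injective O E (by rw [h0, map_zero]))
  have h3 : GaussDVR.iota O E uO ≠ 0 := by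
    intro h0
    rw [h0] at h2
    exact h2 rfl
  exact lt_of_le_of_lt (HahnSeries.order_le_of_coeff_ne_zero h2) hpole

set_option synthInstance.maxHeartbeats 400000 in
/-- **Generic assembly, core.**  The `E`-level statement `(K1)` for a subfield `L ⊆ E((q))` from
the two CONCLUSIONS of the Model Theorem for `(L, u)` (`hprime` = (a), `hK1` = (b)) and the
place-to-`LocPow` translation. -/
theorem k1E_of_model (L : IntermediateField E (LaurentSeries E)) [Algebra O L]
    [IsScalarTower O E L]
    (hfrac : ∀ x : L, (x : LaurentSeries E) ∈ GaussDVR.fracField O E)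
    (π : O) (hπ : Irreducible π) (u : L) (uO : LaurentSeries O)
    (hu : (u : LaurentSeries E) = GaussDVR.iota O E uO) (hpole : (GaussDVR.rho O uO).order < 0)
    [FiniteDimensional (IntermediateField.adjoin E {u}) L]
    (hprime : Prime (algebraMap (Algebra.adjoin O {u}) (integralClosure (Algebra.adjoin O {u}) L)
      (algebraMap O (Algebra.adjoin O {u}) π)))
    (p : ℕ)
    (hK1 : ∀ g : L, Model.GaussOne π u g → Model.LocPow (E := E) p u g →
      ∃ (c : E) (h : L), g = algebraMap E L c * h ^ p)
    (hLP : ∀ g : L, g ≠ 0 → (∀ P : Place E L, (p : ℤ) ∣ P.ord g) →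
      Model.LocPow (E := E) p u g) :
    K1E O E L p := by
  intro g hgL hgV hred hord
  have hG1 : Model.GaussOne π u (⟨g, hgL⟩ : L) :=
    GaussOne.gaussOne_of_red_eq_one' L.val hfrac π hπ u uO hu hpole hprime ⟨g, hgL⟩ hgV hred
  have hg0 : (⟨g, hgL⟩ : L) ≠ 0 := by
    intro h0
    have hg : g = 0 := congrArg Subtype.val h0
    subst hg
    have : GaussDVR.red O E ⟨0, hgV⟩ = 0 := map_zero (GaussDVR.red O E)
    rw [this] at hred
    exact zero_ne_one hred
  obtain ⟨c, h, hc⟩ := hK1 ⟨g, hgL⟩ hG1 (hLP _ hg0 hord)
  refine ⟨c, h, h.2, ?_⟩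
  have h1 : g = ((algebraMap E L c * h ^ p : L) : LaurentSeries E) :=
    congrArg (Subtype.val : L → LaurentSeries E) hc
  rw [h1, HahnSeries.C_apply, ← algebraMap_laurentSeries_eq_single]
  rfl

/-- A base `u` which is an integral series with a pole modulo the maximal ideal is
transcendental over `E`. -/
theorem transcendental_of_pole (L : IntermediateField E (LaurentSeries E)) (u : L)
    (uO : LaurentSeries O) (hu : (u : LaurentSeries E) = GaussDVR.iota O E uO)
    (hpole : (GaussDVR.rho O uO).order < 0) : Transcendental E u :=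
  transcendental_of_order_neg L u (by rw [hu]; exact order_iota_neg uO hpole)

/-- **Generic assembly, family form.**  The `E`-level statement `(K1)` for a subfield
`L ⊆ E((q))` from the hypotheses (i), (ii) of the Model Theorem for `(L, u)` (in the family form
of `Model/Main.lean`) and the place-to-`LocPow` translation. -/
theorem k1E_of_inputs (L : IntermediateField E (LaurentSeries E)) [Algebra O L]
    [IsScalarTower O E L]
    (hfrac : ∀ x : L, (x : LaurentSeries E) ∈ GaussDVR.fracField O E)
    (π : O) (hπ : Irreducible π) (u : L) (uO : LaurentSeries O)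
    (hu : (u : LaurentSeries E) = GaussDVR.iota O E uO) (hpole : (GaussDVR.rho O uO).order < 0)
    [FiniteDimensional (IntermediateField.adjoin E {u}) L]
    (hi : Model.GaussUnram (E := E) π u)
    (S : Finset O) (hS : ∀ c ∈ S, ∀ c' ∈ S, c ≠ c' → IsUnit (c - c'))
    (hii : Model.HorizUnram (E := E) S u)
    (p : ℕ) (hp : p.Prime) (hpO : IsUnit (p : O)) (ζ : O) (hζ : IsPrimitiveRoot ζ p)
    (hLP : ∀ g : L, g ≠ 0 → (∀ P : Place E L, (p : ℤ) ∣ P.ord g) →
      Model.LocPow (E := E) p u g) :
    K1E O E L p := by
  have hT : Transcendental E u := transcendental_of_pole L u uO hu hpole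
  have hAC : Model.AlgClosedIn E L := algClosedIn_laurent L
  exact k1E_of_model L hfrac π hπ u uO hu hpole (modelA π hπ u hT hAC hi S hS hii) p
    (fun g h1 h2 => modelB π hπ u hT hAC hi S hS hii p hp hpO ζ hζ g h1 h2) hLP

/-- **Generic assembly, trace-self-duality form.**  Same as `k1E_of_inputs` with the hypotheses
(i), (ii) in the form `Model.GaussTSD`, `Model.HorizTSD` of `Model/Defs.lean`. -/
theorem k1E_of_inputs_tsd (L : IntermediateField E (LaurentSeries E)) [Algebra O L]
    [IsScalarTower O E L]
    (hfrac : ∀ x : L, (x : LaurentSeries E) ∈ GaussDVR.fracField O E)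
    (π : O) (hπ : Irreducible π) (u : L) (uO : LaurentSeries O)
    (hu : (u : LaurentSeries E) = GaussDVR.iota O E uO) (hpole : (GaussDVR.rho O uO).order < 0)
    [FiniteDimensional (IntermediateField.adjoin E {u}) L]
    (hi : Model.GaussTSD (E := E) π u)
    (S : Finset O) (hS : ∀ c ∈ S, ∀ c' ∈ S, c ≠ c' → IsUnit (c - c'))
    (hii : Model.HorizTSD (E := E) S u)
    (p : ℕ) (hp : p.Prime) (hpO : IsUnit (p : O)) (ζ : O) (hζ : IsPrimitiveRoot ζ p)
    (hLP : ∀ g : L, g ≠ 0 → (∀ P : Place E L, (p : ℤ) ∣ P.ord g) →
      Model.LocPow (E := E) p u g) :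
    K1E O E L p := by
  have hT : Transcendental E u := transcendental_of_pole L u uO hu hpole
  have hAC : Model.AlgClosedIn E L := algClosedIn_laurent L
  exact k1E_of_model L hfrac π hπ u uO hu hpole (modelA_tsd π hπ u hT hAC hi S hS hii) p
    (fun g h1 h2 => modelB_tsd π hπ u hT hAC hi S hS hii p hp hpO ζ hζ g h1 h2) hLP

end Assembly

end Fermat.Agent.S18.K1Main
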