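import Mathlib
import Fermat.Agent.S18.K1Defs
import Fermat.Agent.S18.K1Main.Generic
import Fermat.Agent.S30.GaussDescent
import Fermat.Agent.S30.ModSep

/-!
# S18 / K1Main: the instantiation at `L = LE N E`, base `u = j` (residue characteristic `> 3`)

* `algebraOL`, `isScalarTower_OL` : THE canonical `O`-algebra structure on a subfield of `E((q))`
  (instance search does not find one); every statement below is about this structure.
* `jE N E : LE N E` : the element `j` (coercion `coeffEmb E jq`).
* `JInputs N O E p` : the four modular/function-field inputs of the Model Theorem for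
  `(LE N E, j)`, generic in the discrete valuation ring `O` with fraction field `E`.
* `k1E_of_jInputs` : `JInputs ⇒ K1E O E (LE N E) p` (generic).
* `k1Modular_of_jInputs` : `(∃ S₀, ∀ E ⊇ S₀, JInputs N (OE A E) E p) ⇒ K1Modular N A p` for a
  valuation ring `A` of `ℚ̄` over a prime `ℓ > 3`, `p ≠ ℓ` prime.
-/

set_option autoImplicit false
set_option linter.unusedSectionVars false
set_option linter.style.haveILetI false

open ModularCurve AlgebraicCurve Polynomial

noncomputable section

namespace Fermat.Agent.S18.K1Main

open Fermat.Agent.S18.K1Defs Fermat.Agent.S30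

local notation "Qb" => AlgebraicClosure ℚ

/-- THE canonical `O`-algebra structure on a subfield `L` of `E((q))`: through `E`. -/
@[reducible] def algebraOL (O E : Type*) [CommRing O] [Field E] [Algebra O E]
    (L : IntermediateField E (LaurentSeries E)) : Algebra O L :=
  ((algebraMap E L).comp (algebraMap O E)).toAlgebra

theorem isScalarTower_OL (O E : Type*) [CommRing O] [Field E] [Algebra O E]
    (L : IntermediateField E (LaurentSeries E)) :
    letI := algebraOL O E L
    IsScalarTower O E L :=
  letI := algebraOL O E L
  IsScalarTower.of_algebraMap_eq (fun _ => rfl)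

/-- The element `j` of the level-`N` function field over `E`. -/
def jE (N : ℕ) [NeZero N] (E : Type*) [Field E] [Algebra ℚ E] : LE N E :=
  ⟨coeffEmb E jq, coeffEmb_mem_laurentBaseChange E (by
    have h := jqd_mem_full N (one_dvd N)
    rwa [qExpand_one_apply] at h)⟩

@[simp] theorem coe_jE (N : ℕ) [NeZero N] (E : Type*) [Field E] [Algebra ℚ E] :
    ((jE N E : LE N E) : LaurentSeries E) = coeffEmb E jq := rfl

/-- **The inputs of the Model Theorem** for the level-`N` function field `LE N E ⊆ E((q))` over
the fraction field `E` of a discrete valuation ring `O`, with base `u = j` and branch values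
`0, 1728`; the `O`-algebra structure on `LE N E` is an instance argument (in the applications:
`algebraOL`). -/
structure JInputs (N : ℕ) [NeZero N] (O E : Type) [CommRing O] [IsDomain O]
    [IsDiscreteValuationRing O] [Field E] [CharZero E] [Algebra O E] [IsFractionRing O E]
    [Algebra ℚ E] [Algebra O (LE N E)] [IsScalarTower O E (LE N E)] (p : ℕ) : Prop where
  /-- (FD) `LE N E` is finite over `E(j)`. -/
  fin : FiniteDimensional (IntermediateField.adjoin E {jE N E}) (LE N E)
  /-- (G) hypothesis (i): the Gauss valuation of `E(j)` is unramified in `LE N E`. -/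
  gauss : ∀ π : O, Irreducible π → Model.GaussUnram (E := E) π (jE N E)
  /-- (H) hypothesis (ii): `LE N E / E(j)` is unramified outside `j = 0, 1728, ∞`. -/
  horiz : ∀ S : Finset O, (0 : O) ∈ S → (1728 : O) ∈ S → Model.HorizUnram (E := E) S (jE N E)
  /-- (LP) divisibility of all orders by `p` gives `LocPow`. -/
  locPow : ∀ g : LE N E, g ≠ 0 →
    (∀ P : Place E (LE N E), (p : ℤ) ∣ P.ord g) → Model.LocPow (E := E) p (jE N E) g

/-- `JInputs` for the canonical `O`-algebra structure `algebraOL`. -/
def JInputsC (N : ℕ) [NeZero N] (O E : Type) [CommRing O] [IsDomain O]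
    [IsDiscreteValuationRing O] [Field E] [CharZero E] [Algebra O E] [IsFractionRing O E]
    [Algebra ℚ E] (p : ℕ) : Prop :=
  letI := algebraOL O E (LE N E)
  haveI := isScalarTower_OL O E (LE N E)
  JInputs N O E p

section Generic

variable (N : ℕ) [NeZero N] {O E : Type} [CommRing O] [IsDomain O] [IsDiscreteValuationRing O]
  [Field E] [CharZero E] [Algebra O E] [IsFractionRing O E] [Algebra ℚ E]

theorem coeffEmb_jq_eq_iota : coeffEmb E jq = GaussDVR.iota O E (jqModC O) := by
  rw [← jqModC_rat]
  show coeffMap (algebraMap ℚ E) (jqModC ℚ) = coeffMap (algebraMap O E) (jqModC O)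
  rw [coeffMap_jqModC, coeffMap_jqModC]

theorem order_rho_jqModC_neg : (GaussDVR.rho O (jqModC O)).order < 0 := by
  have h1 : GaussDVR.rho O (jqModC O) = jqModC (IsLocalRing.ResidueField O) :=
    coeffMap_jqModC (IsLocalRing.residue O)
  rw [h1]
  have h2 : (jqModC (IsLocalRing.ResidueField O)).coeff (-1) ≠ 0 := by
    rw [ModSep.jqModC_coeff_neg_one]
    exact one_ne_zero
  exact lt_of_le_of_lt (HahnSeries.order_le_of_coeff_ne_zero h2) (by norm_num)

/-- **`(K1E)` for `LE N E` from the inputs**, generic in the discrete valuation ring `O`. -/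
theorem k1E_of_jInputs
    (hfrac : ∀ x : LaurentSeries E, x ∈ LE N E → x ∈ GaussDVR.fracField O E)
    (h1728 : IsUnit (1728 : O)) (p : ℕ) (hp : p.Prime) (hpO : IsUnit (p : O)) (ζ : O)
    (hζ : IsPrimitiveRoot ζ p) (h : JInputsC N O E p) : K1E O E (LE N E) p := by
  classical
  letI := algebraOL O E (LE N E)
  haveI := isScalarTower_OL O E (LE N E)
  have h' : JInputs N O E p := h
  obtain ⟨π, hπ⟩ := IsDiscreteValuationRing.exists_irreducible O
  haveI := h'.fin
  have hS : ∀ c ∈ ({0, 1728} : Finset O), ∀ c' ∈ ({0, 1728} : Finset O), c ≠ c' →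
      IsUnit (c - c') := by
    intro c hc c' hc' hne
    simp only [Finset.mem_insert, Finset.mem_singleton] at hc hc'
    rcases hc with rfl | rfl <;> rcases hc' with rfl | rfl
    · exact absurd rfl hne
    · rw [zero_sub]; exact h1728.neg
    · rw [sub_zero]; exact h1728
    · exact absurd rfl hne
  exact k1E_of_inputs (LE N E) (fun x => hfrac x x.2) π hπ (jE N E) (jqModC O)
    (coeffEmb_jq_eq_iota (O := O) (E := E)) (order_rho_jqModC_neg (O := O)) (h'.gauss π hπ)
    {0, 1728} hS
    (h'.horiz _ (by simp) (by simp)) p hp hpO ζ hζ h'.locPow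

end Generic

end Fermat.Agent.S18.K1Main
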