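import Mathlib
import Fermat.Agent.S18.K1Defs
import Fermat.Agent.S30.GaussDescent

/-!
# S18 / K1Main: units and roots of unity of `O_E = A ∩ E`

* `isUnit_natCast_OE` : integers prime to `ℓ` are units of `O_E = A ∩ E`.
* `exists_primitiveRoot_OE` : a primitive `n`-th root of unity of `ℚ̄` lying in `E` is a primitive
  root of unity of `O_E`.
-/

set_option autoImplicit false

noncomputable section

namespace Fermat.Agent.S18.K1Main

open Fermat.Agent.S18.K1Defs Fermat.Agent.S30

local notation "Qb" => AlgebraicClosure ℚ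

variable (A : ValuationSubring Qb) (E : IntermediateField ℚ Qb)

/-- Integers prime to `ℓ` are units of `O_E`. -/
theorem isUnit_natCast_OE {ℓ : ℕ} (hA : A.LiesOverPrime ℓ) (n : ℕ) (hn : Nat.Coprime n ℓ) :
    IsUnit ((n : ℕ) : OE A E) := by
  by_contra hnu
  have h1 : ((n : ℕ) : OE A E) ∈ IsLocalRing.maximalIdeal (OE A E) := by
    rw [IsLocalRing.mem_maximalIdeal, mem_nonunits_iff]
    exact hnu
  have h2 : ((ℓ : ℕ) : OE A E) ∈ IsLocalRing.maximalIdeal (OE A E) := by
    have h := GaussDescent.natCast_mem_nonunits_OE A E hA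
    rw [ValuationSubring.mem_nonunits_iff_exists_mem_maximalIdeal] at h
    obtain ⟨ha, hm⟩ := h
    convert hm using 1
    exact Subtype.ext (by simp)
  have hcop : IsCoprime (n : ℤ) (ℓ : ℤ) := Nat.isCoprime_iff_coprime.mpr hn
  obtain ⟨a, b, hab⟩ := hcop
  have h3 : (1 : OE A E) ∈ IsLocalRing.maximalIdeal (OE A E) := by
    have h4 : ((a : ℤ) : OE A E) * ((n : ℕ) : OE A E) + ((b : ℤ) : OE A E) * ((ℓ : ℕ) : OE A E)
        = 1 := by
      have := congrArg (Int.cast : ℤ → OE A E) hab
      push_cast at this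
      exact this
    rw [← h4]
    exact Ideal.add_mem _ (Ideal.mul_mem_left _ _ h1) (Ideal.mul_mem_left _ _ h2)
  exact (Ideal.ne_top_iff_one _).mp (IsLocalRing.maximalIdeal.isMaximal _).ne_top h3

/-- A root of unity of `ℚ̄` lies in every valuation ring. -/
theorem mem_of_pow_eq_one {z : Qb} {n : ℕ} (hn : 0 < n) (hz : z ^ n = 1) : z ∈ A := by
  rcases A.mem_or_inv_mem z with h | h
  · exact h
  · have h1 : z = z⁻¹ ^ (n - 1) := by
      have hz0 : z ≠ 0 := by
        rintro rfl
        rw [zero_pow hn.ne'] at hz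
        exact zero_ne_one hz
      have h2 : z ^ (n - 1) * z = 1 := by
        rw [← pow_succ, Nat.sub_add_cancel hn, hz]
      rw [inv_pow]
      exact eq_inv_of_mul_eq_one_right h2
    rw [h1]
    exact pow_mem h _

/-- A primitive root of unity of `ℚ̄` lying in `E` gives one in `O_E`. -/
theorem exists_primitiveRoot_OE {z : Qb} {n : ℕ} (hn : 0 < n) (hz : IsPrimitiveRoot z n)
    (hzE : z ∈ E) : ∃ ζ : OE A E, IsPrimitiveRoot ζ n := by
  have hzA : z ∈ A := mem_of_pow_eq_one A hn hz.pow_eq_one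
  refine ⟨⟨⟨z, hzE⟩, hzA⟩, ?_⟩
  have hinj : Function.Injective
      ((algebraMap E Qb).comp (algebraMap (OE A E) E)) :=
    (algebraMap E Qb).injective.comp Subtype.val_injective
  exact IsPrimitiveRoot.of_map_of_injective (f := (algebraMap E Qb).comp (algebraMap (OE A E) E))
    hz hinj

end Fermat.Agent.S18.K1Main
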