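import Mathlib
import Fermat.Agent.S18.K1Defs
import Fermat.Agent.S18.K1Main.Generic
import Fermat.Agent.S18.K1Main.JBase
import Fermat.Agent.S18.K1Main.Units
import Fermat.Agent.S18.LocPow
import Fermat.Agent.S30.GaussDescent

/-!
# S18 / K1Main: the assembly for an arbitrary base `u` (`j`, or a Hauptmodul at level `2N`, `3N`)

* `BaseInputs M O E` : the modular inputs of the Model Theorem for the level-`M` function field
  `LE M E ⊆ E((q))` over the fraction field `E` of a discrete valuation ring `O`:
  a base `u ∈ LE M E` which is an integral series with a pole modulo the maximal ideal, a finite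
  set `S ⊆ O` of branch values with pairwise unit differences, `LE M E / E(u)` finite,
  hypotheses (i) `GaussUnram` and (ii) `HorizUnram S`.
* `BaseInputsTSD M O E` : the same with (i), (ii) in trace-self-duality form (`GaussTSD`,
  `HorizTSD`); `baseInputsTSD_of_baseInputs` : the family form implies it.
* `k1E_of_baseInputsTSD`, `k1E_of_baseInputs` : `BaseInputs(TSD) ⇒ K1E O E (LE M E) p` (the
  place-to-`LocPow` translation is `S18.LocPow.locPow_of_dvd_ord`).
* `k1Modular_of_baseInputsTSD`, `k1Modular_of_baseInputs` :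
  `(∃ S₀, ∀ E ⊇ S₀, BaseInputs(TSD)C M (OE A E) E) ⇒ K1Modular M A p`, for `A` over `ℓ`, `p ≠ ℓ`.
-/

set_option autoImplicit false
set_option linter.unusedSectionVars false
set_option linter.style.haveILetI false

open ModularCurve AlgebraicCurve Polynomial

noncomputable section

namespace Fermat.Agent.S18.K1Main

open Fermat.Agent.S18.K1Defs Fermat.Agent.S30

local notation "Qb" => AlgebraicClosure ℚ

/-- **The modular inputs of the Model Theorem for `LE M E`** with an arbitrary base `u`.
The `O`-algebra structure on `LE M E` is an instance argument (in the applications: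
`algebraOL`). -/
def BaseInputs (M : ℕ) [NeZero M] (O E : Type) [CommRing O] [IsDomain O]
    [IsDiscreteValuationRing O] [Field E] [CharZero E] [Algebra O E] [IsFractionRing O E]
    [Algebra ℚ E] [Algebra O (LE M E)] [IsScalarTower O E (LE M E)] : Prop :=
  ∃ (u : LE M E) (uO : LaurentSeries O) (S : Finset O),
    (u : LaurentSeries E) = GaussDVR.iota O E uO ∧
    (GaussDVR.rho O uO).order < 0 ∧
    (∀ c ∈ S, ∀ c' ∈ S, c ≠ c' → IsUnit (c - c')) ∧
    FiniteDimensional (IntermediateField.adjoin E {u}) (LE M E) ∧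
    (∀ π : O, Irreducible π → Model.GaussUnram (E := E) π u) ∧
    Model.HorizUnram (E := E) S u

/-- `BaseInputs` for the canonical `O`-algebra structure `algebraOL`. -/
def BaseInputsC (M : ℕ) [NeZero M] (O E : Type) [CommRing O] [IsDomain O]
    [IsDiscreteValuationRing O] [Field E] [CharZero E] [Algebra O E] [IsFractionRing O E]
    [Algebra ℚ E] : Prop :=
  letI := algebraOL O E (LE M E)
  haveI := isScalarTower_OL O E (LE M E)
  BaseInputs M O E

/-- **The modular inputs of the Model Theorem for `LE M E`**, trace-self-duality form: as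
`BaseInputs`, with hypotheses (i), (ii) in the form `Model.GaussTSD`, `Model.HorizTSD` of
`Model/Defs.lean` (what base-change arguments produce, e.g. for a Hauptmodul base). -/
def BaseInputsTSD (M : ℕ) [NeZero M] (O E : Type) [CommRing O] [IsDomain O]
    [IsDiscreteValuationRing O] [Field E] [CharZero E] [Algebra O E] [IsFractionRing O E]
    [Algebra ℚ E] [Algebra O (LE M E)] [IsScalarTower O E (LE M E)] : Prop :=
  ∃ (u : LE M E) (uO : LaurentSeries O) (S : Finset O),
    (u : LaurentSeries E) = GaussDVR.iota O E uO ∧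
    (GaussDVR.rho O uO).order < 0 ∧
    (∀ c ∈ S, ∀ c' ∈ S, c ≠ c' → IsUnit (c - c')) ∧
    FiniteDimensional (IntermediateField.adjoin E {u}) (LE M E) ∧
    (∀ π : O, Irreducible π → Model.GaussTSD (E := E) π u) ∧
    Model.HorizTSD (E := E) S u

/-- `BaseInputsTSD` for the canonical `O`-algebra structure `algebraOL`. -/
def BaseInputsTSDC (M : ℕ) [NeZero M] (O E : Type) [CommRing O] [IsDomain O]
    [IsDiscreteValuationRing O] [Field E] [CharZero E] [Algebra O E] [IsFractionRing O E]
    [Algebra ℚ E] : Prop :=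
  letI := algebraOL O E (LE M E)
  haveI := isScalarTower_OL O E (LE M E)
  BaseInputsTSD M O E

section Generic

variable (M : ℕ) [NeZero M] {O E : Type} [CommRing O] [IsDomain O] [IsDiscreteValuationRing O]
  [Field E] [CharZero E] [Algebra O E] [IsFractionRing O E] [Algebra ℚ E]

/-- The family form of the inputs implies the trace-self-duality form. -/
theorem baseInputsTSD_of_baseInputs [Algebra O (LE M E)] [IsScalarTower O E (LE M E)]
    (h : BaseInputs M O E) : BaseInputsTSD M O E := by
  obtain ⟨u, uO, S, hu, hpole, hS, hfin, hG, hH⟩ := h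
  haveI := hfin
  have hT : Transcendental E u := transcendental_of_pole (LE M E) u uO hu hpole
  exact ⟨u, uO, S, hu, hpole, hS, hfin, fun π hπ => gaussTSD_of_gaussUnram π hπ u hT (hG π hπ),
    horizTSD_of_horizUnram u hT S hH⟩

theorem baseInputsTSDC_of_baseInputsC (h : BaseInputsC M O E) : BaseInputsTSDC M O E := by
  letI := algebraOL O E (LE M E)
  haveI := isScalarTower_OL O E (LE M E)
  exact baseInputsTSD_of_baseInputs M h

/-- **`(K1E)` for `LE M E` from the inputs in trace-self-duality form**, generic in the discrete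
valuation ring `O`. -/
theorem k1E_of_baseInputsTSD
    (hfrac : ∀ x : LaurentSeries E, x ∈ LE M E → x ∈ GaussDVR.fracField O E)
    (p : ℕ) (hp : p.Prime) (hpO : IsUnit (p : O)) (ζ : O)
    (hζ : IsPrimitiveRoot ζ p) (h : BaseInputsTSDC M O E) : K1E O E (LE M E) p := by
  letI := algebraOL O E (LE M E)
  haveI := isScalarTower_OL O E (LE M E)
  obtain ⟨u, uO, S, hu, hpole, hS, hfin, hG, hH⟩ := (h : BaseInputsTSD M O E)
  obtain ⟨π, hπ⟩ := IsDiscreteValuationRing.exists_irreducible O
  haveI := hfin
  have hT : Transcendental E u := transcendental_of_pole (LE M E) u uO hu hpole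
  exact k1E_of_inputs_tsd (LE M E) (fun x => hfrac x x.2) π hπ u uO hu hpole (hG π hπ) S hS hH
    p hp hpO ζ hζ (fun g hg hord => LocPow.locPow_of_dvd_ord u hT p g hg hord)

/-- **`(K1E)` for `LE M E` from the inputs** (family form), generic in the discrete valuation
ring `O`. -/
theorem k1E_of_baseInputs
    (hfrac : ∀ x : LaurentSeries E, x ∈ LE M E → x ∈ GaussDVR.fracField O E)
    (p : ℕ) (hp : p.Prime) (hpO : IsUnit (p : O)) (ζ : O)
    (hζ : IsPrimitiveRoot ζ p) (h : BaseInputsC M O E) : K1E O E (LE M E) p :=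
  k1E_of_baseInputsTSD M hfrac p hp hpO ζ hζ (baseInputsTSDC_of_baseInputsC M h)

/-- The inputs for the base `u = j` with branch values `0, 1728` (when `1728` is a unit). -/
theorem baseInputsC_of_j (N : ℕ) [NeZero N] (h1728 : IsUnit (1728 : O))
    (hfin : FiniteDimensional (IntermediateField.adjoin E {jE N E}) (LE N E))
    (hG : letI := algebraOL O E (LE N E)
      ∀ π : O, Irreducible π → Model.GaussUnram (E := E) π (jE N E))
    (hH : ∀ S : Finset O, (0 : O) ∈ S → (1728 : O) ∈ S →
      Model.HorizUnram (E := E) S (jE N E)) : BaseInputsC N O E := by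
  classical
  letI := algebraOL O E (LE N E)
  haveI := isScalarTower_OL O E (LE N E)
  refine ⟨jE N E, jqModC O, {0, 1728}, coeffEmb_jq_eq_iota (O := O) (E := E),
    order_rho_jqModC_neg (O := O), ?_, hfin, hG, hH _ (by simp) (by simp)⟩
  intro c hc c' hc' hne
  simp only [Finset.mem_insert, Finset.mem_singleton] at hc hc'
  rcases hc with rfl | rfl <;> rcases hc' with rfl | rfl
  · exact absurd rfl hne
  · rw [zero_sub]; exact h1728.neg
  · rw [sub_zero]; exact h1728
  · exact absurd rfl hne

end Generic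

/-- **`K1Modular M A p` from the inputs of the Model Theorem in trace-self-duality form** at
level `M` (any base `u`), for a valuation ring `A` of `ℚ̄` over a prime `ℓ` and a prime
`p ≠ ℓ`. -/
theorem k1Modular_of_baseInputsTSD (A : ValuationSubring Qb) (M : ℕ) [NeZero M] {ℓ : ℕ}
    [Fact ℓ.Prime] (hA : A.LiesOverPrime ℓ) (p : ℕ) (hp : p.Prime) (hpℓ : p ≠ ℓ)
    (h : ∃ S₀ : Finset Qb, ∀ (E : IntermediateField ℚ Qb) [FiniteDimensional ℚ E]
      [IsDiscreteValuationRing (OE A E)], (∀ s ∈ S₀, s ∈ E) → BaseInputsTSDC M (OE A E) E) :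
    K1Modular M A p := by
  classical
  obtain ⟨S₀, h⟩ := h
  have hℓp : ℓ.Prime := Fact.out
  have : NeZero (p : Qb) := ⟨Nat.cast_ne_zero.mpr hp.ne_zero⟩
  obtain ⟨z, hz⟩ := HasEnoughRootsOfUnity.exists_primitiveRoot Qb p
  refine ⟨insert z S₀, fun E _ _ hE => ?_⟩
  have hzE : z ∈ E := hE z (Finset.mem_insert_self _ _)
  obtain ⟨ζ, hζ⟩ := exists_primitiveRoot_OE A E hp.pos hz hzE
  have hpO : IsUnit ((p : ℕ) : OE A E) :=
    isUnit_natCast_OE A E hA p ((Nat.coprime_primes hp hℓp).mpr hpℓ)
  exact k1E_of_baseInputsTSD M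
    (fun x hx => GaussDescent.mem_fracField_of_mem_laurentBaseChange A E
      (modularFunctionFieldFull M) (GaussDescent.intFrac_of_mem_full M) hx)
    p hp hpO ζ hζ (h E (fun s hs => hE s (Finset.mem_insert_of_mem hs)))

/-- **`K1Modular M A p` from the inputs of the Model Theorem** (family form) at level `M` (any
base `u`), for a valuation ring `A` of `ℚ̄` over a prime `ℓ` and a prime `p ≠ ℓ`. -/
theorem k1Modular_of_baseInputs (A : ValuationSubring Qb) (M : ℕ) [NeZero M] {ℓ : ℕ}
    [Fact ℓ.Prime] (hA : A.LiesOverPrime ℓ) (p : ℕ) (hp : p.Prime) (hpℓ : p ≠ ℓ)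
    (h : ∃ S₀ : Finset Qb, ∀ (E : IntermediateField ℚ Qb) [FiniteDimensional ℚ E]
      [IsDiscreteValuationRing (OE A E)], (∀ s ∈ S₀, s ∈ E) → BaseInputsC M (OE A E) E) :
    K1Modular M A p := by
  obtain ⟨S₀, h⟩ := h
  exact k1Modular_of_baseInputsTSD A M hA p hp hpℓ
    ⟨S₀, fun E _ _ hE => baseInputsTSDC_of_baseInputsC M (h E hE)⟩

end Fermat.Agent.S18.K1Main
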