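import Mathlib
import Fermat.Agent.S18.K1Defs
import Fermat.Agent.S18.K1Main
import Fermat.Agent.S30.CSide.Degree
import Fermat.Agent.S30.E2.GaussUnram

/-!
# S18 / K1Main: `K1Modular N A p` for residue characteristic `ℓ > 3`

`k1Modular_gt3` : for a valuation ring `A` of `ℚ̄` over a prime `ℓ > 3` with `ℓ ∤ N` and a prime
`p ≠ ℓ`, the Kummer statement `K1Defs.K1Modular N A p` holds.

Inputs: the Model Theorem (`Model.main_a`, `Model.main_b`), hypothesis (i) `E2.GaussUnram`
(helper148), hypothesis (ii) `E2.Horiz` (helper70), the degree `CSide.Degree` (helper300),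
`S18.LocPow` (helper158), `S30.GaussOne` (helper268).
-/

set_option autoImplicit false
set_option linter.style.haveILetI false

open ModularCurve AlgebraicCurve Polynomial

noncomputable section

namespace Fermat.Agent.S18.K1Main

open Fermat.Agent.S18.K1Defs Fermat.Agent.S30

local notation "Qb" => AlgebraicClosure ℚ

/-- Finiteness over `E(j)` and hypothesis (i) for `(LE N E, j)`: generic in the discrete
valuation ring `O` (fraction field `E ⊆ ℂ`, containing a primitive `N`-th root of unity and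
`1/N`). -/
theorem finGaussC_of (N : ℕ) [NeZero N] {O E : Type} [CommRing O] [IsDomain O]
    [IsDiscreteValuationRing O] [Field E] [CharZero E] [Algebra O E] [IsFractionRing O E]
    [Algebra ℚ E] (ι : E →+* ℂ) {ζ₀ : O} (hζ₀ : IsPrimitiveRoot ζ₀ N) (hN : IsUnit (N : O)) :
    FinGaussC N O E := by
  letI := algebraOL O E (LE N E)
  haveI := isScalarTower_OL O E (LE N E)
  exact ⟨CSide.finite_jL ι N, fun π hπ =>
    E2.GaussUnram.gaussUnram_jL_of_not_isUnit N ι (IsFractionRing.injective O E) hζ₀ hN π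
      hπ.not_isUnit⟩

/-- **`K1Modular N A p` for residue characteristic `ℓ > 3`.** -/
theorem k1Modular_gt3 (A : ValuationSubring Qb) (N : ℕ) [NeZero N] {ℓ : ℕ} [Fact ℓ.Prime]
    (hℓN : ¬ ℓ ∣ N) (hA : A.LiesOverPrime ℓ) (hℓ : 3 < ℓ) (p : ℕ) (hp : p.Prime)
    (hpℓ : p ≠ ℓ) : K1Modular N A p := by
  classical
  have hℓp : ℓ.Prime := Fact.out
  have : NeZero (N : Qb) := ⟨Nat.cast_ne_zero.mpr (NeZero.ne N)⟩
  obtain ⟨z, hz⟩ := HasEnoughRootsOfUnity.exists_primitiveRoot Qb N
  refine k1Modular_of_finGauss A N hA hℓ p hp hpℓ ⟨{z}, fun E _ _ hE => ?_⟩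
  have hzE : z ∈ E := hE z (Finset.mem_singleton_self z)
  obtain ⟨ζ₀, hζ₀⟩ := exists_primitiveRoot_OE A E (Nat.pos_of_ne_zero (NeZero.ne N)) hz hzE
  have hN : IsUnit ((N : ℕ) : OE A E) :=
    isUnit_natCast_OE A E hA N
      (Nat.Coprime.symm ((Nat.Prime.coprime_iff_not_dvd hℓp).mpr hℓN))
  exact finGaussC_of N (Fermat.Agent.S24.Theta.iotaBar.comp (algebraMap E Qb)) hζ₀ hN

end Fermat.Agent.S18.K1Main
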